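import Mathlib
import Fermat.Agent.LT.H556.A0
import Fermat.Agent.LT.T1.Spec
import Fermat.Agent.LT.T5.Spec
import Fermat.Agent.LT.T5.H29.TwSpec
import Fermat.Agent.LT.T1.H793.AdeleProj
import Fermat.Agent.LT.T1.H793.Height
import Fermat.Agent.LT.T1.H919.SiegelTools

/-!
# Row LT, tower T5, sub-leaf T5.07e `MahlerC` (helper501) — OFF-MAIN

`mahlerC501 K : T5.H29.MahlerC K` (bytes of `T5/H29/TwSpec.lean`, helper29): the part of the slab
`1 ≤ ‖det y‖ < 2` of height in `[c₀, c₁]` is `GL₂(K) · Ω` with `Ω` compact.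

Proof.  `T1.SiegelCompactC` at `c₀`: `y = β z a ω`, `β ∈ B(K)`, `z` central, `a = diag(s, 1)` in
the ray, `ω ∈ Ω₀` compact, `m t ≤ s ^ n ≤ M t`; so `log s` lies in a compact interval.  The module
of the determinant is continuous and positive, hence bounded above and below on `Ω₀`; with
`1 ≤ ‖det y‖ < 2` and the product formula this bounds the module `ν` of the scalar `c` of `z`.
`c = ξ · ray(ν ^ (1/n)) · c'` with `ξ ∈ Kˣ`, `c'` in the compact set of `T1.FujisakiC`.  Then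
`(β ξ)⁻¹ y ∈ scalar(ray) · scalar(C) · ray · Ω₀`, a product of four compact sets.
-/

set_option autoImplicit false

open IsDedekindDomain NumberField
open Fermat.Agent.LT.H556.A0
open Fermat.Agent.LT.T1
open Fermat.Agent.LT.T1.H793
open Fermat.Agent.LT.T1.H919
open scoped Pointwise

noncomputable section

namespace Fermat.Agent.LT.H501

variable {K : Type} [Field K] [NumberField K]

/-! ## `exp` as a unit of `ℝ` -/

/-- `exp τ` as a unit of `ℝ`. -/
def expU501 (τ : ℝ) : ℝˣ := Units.mk0 (Real.exp τ) (Real.exp_ne_zero τ)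

lemma expU501_val (τ : ℝ) : ((expU501 τ : ℝˣ) : ℝ) = Real.exp τ := rfl

lemma continuous_expU501 : Continuous expU501 := by
  rw [Units.continuous_iff]
  refine ⟨Real.continuous_exp, ?_⟩
  have h : (fun τ : ℝ => (((expU501 τ)⁻¹ : ℝˣ) : ℝ)) = fun τ => Real.exp (-τ) := by
    funext τ
    rw [Units.val_inv_eq_inv_val, expU501_val, Real.exp_neg]
  rw [h]
  exact Real.continuous_exp.comp continuous_neg

/-! ## The ray ideles and the scalar matrices -/

/-- The ray idele of parameter `exp τ`. -/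
def rayU501 (K : Type) [Field K] [NumberField K] (τ : ℝ) : (Adl K)ˣ :=
  Units.map (rayAdl919 K) (expU501 τ)

lemma rayU501_val (τ : ℝ) : ((rayU501 K τ : (Adl K)ˣ) : Adl K) = rayAdl919 K (Real.exp τ) := rfl

lemma continuous_rayU501 : Continuous (rayU501 K) :=
  (Continuous.units_map (rayAdl919 K) continuous_rayAdl919).comp continuous_expU501

lemma adNorm_rayU501 (τ : ℝ) :
    adNorm K ((rayU501 K τ : (Adl K)ˣ) : Adl K) = Real.exp τ ^ Module.finrank ℚ K := by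
  rw [rayU501_val, adNorm_rayAdl919, abs_of_pos (Real.exp_pos τ)]

lemma continuous_scalarG501 : Continuous (fun c : (Adl K)ˣ => (scalarG919 c : G K)) := by
  have h : Continuous (fun a : Adl K =>
      (Matrix.scalar (Fin 2) a : Matrix (Fin 2) (Fin 2) (Adl K))) := by
    have h' : (fun a : Adl K => (Matrix.scalar (Fin 2) a : Matrix (Fin 2) (Fin 2) (Adl K)))
        = fun a => Matrix.diagonal (fun _ => a) := by
      funext a
      rw [Matrix.scalar_apply]
    rw [h']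
    exact Continuous.matrix_diagonal (continuous_pi fun _ => continuous_id)
  exact Continuous.units_map
    (Matrix.scalar (Fin 2) : Adl K →+* Matrix (Fin 2) (Fin 2) (Adl K)).toMonoidHom h

lemma scalarG919_mul501 {R : Type*} [CommRing R] (x y : Rˣ) :
    (scalarG919 (x * y) : GL (Fin 2) R) = scalarG919 x * scalarG919 y := by
  unfold scalarG919
  exact map_mul _ x y

lemma ratG_scalar501 (ξ : Kˣ) : ratG K (scalarG919 ξ) = scalarG919 (ratUnit K ξ) := by
  apply Units.ext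
  rw [scalarG919_val]
  show ((scalarG919 ξ : GL (Fin 2) K) : Matrix (Fin 2) (Fin 2) K).map (algebraMap K (Adl K)) = _
  rw [scalarG919_val]
  ext i j
  fin_cases i <;> fin_cases j <;> simp [ratUnit]

/-- A central element is the scalar matrix of an idele. -/
lemma central_eq_scalar501 {z : G K} (hz : IsCentral K z) :
    ∃ c : (Adl K)ˣ, z = scalarG919 c := by
  obtain ⟨c, hc⟩ := hz
  have hdet : IsUnit (Matrix.det (z : Matrix (Fin 2) (Fin 2) (Adl K))) :=
    Matrix.isUnits_det_units z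
  rw [hc, Matrix.det_diagonal, Fin.prod_univ_two] at hdet
  have hcu : IsUnit c := isUnit_of_mul_isUnit_left hdet
  obtain ⟨cu, rfl⟩ := hcu
  exact ⟨cu, Units.ext (by rw [hc, scalarG919_val])⟩

/-- The ray element of parameter `exp τ` is the only one. -/
lemma isRay_eq501 {a : G K} {τ : ℝ} (ha : IsRay K a (Real.exp τ)) :
    a = rayG919 K (expU501 τ) := by
  have hb : IsRay K (rayG919 K (expU501 τ)) (Real.exp τ) := isRay_rayG919 (expU501 τ)
  apply gl_ext793
  · intro w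
    apply Units.ext
    have h1 := ha.2 w
    have h2 := hb.2 w
    rw [infComp_eq793] at h1 h2
    have hinj : Function.Injective (InfinitePlace.Completion.extensionEmbedding w) :=
      RingHom.injective _
    refine Matrix.ext fun i j => ?_
    apply hinj
    have h3 := congrFun (congrFun (h1.trans h2.symm) i) j
    simpa [Matrix.map_apply] using h3
  · intro v
    apply Units.ext
    have h1 : finComp v a = 1 := ha.1 v
    have h2 : finComp v (rayG919 K (expU501 τ)) = 1 := hb.1 v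
    show finComp v a = finComp v (rayG919 K (expU501 τ))
    rw [h1, h2]

lemma continuous_rayG501 : Continuous (fun τ : ℝ => rayG919 K (expU501 τ)) := by
  have h : (fun τ : ℝ => rayG919 K (expU501 τ))
      = (fun p : (Adl K)ˣ × Adl K => (up919 p.1 p.2 : G K)) ∘
        (fun τ => (rayU501 K τ, (0 : Adl K))) := rfl
  rw [h]
  exact continuous_up919.comp (continuous_rayU501.prodMk continuous_const)

/-! ## The module of the determinant -/

/-- The module of the determinant. -/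
def detNorm501 (g : G K) : ℝ := adNorm K (Matrix.det (g : Matrix (Fin 2) (Fin 2) (Adl K)))

lemma continuous_detU501 :
    Continuous (fun g : G K => (Matrix.GeneralLinearGroup.det g : (Adl K)ˣ)) := by
  rw [Units.continuous_iff]
  constructor
  · show Continuous (fun g : G K => Matrix.det (g : Matrix (Fin 2) (Fin 2) (Adl K)))
    exact Continuous.matrix_det Units.continuous_val
  · show Continuous (fun g : G K => Matrix.det ((g⁻¹ : G K) : Matrix (Fin 2) (Fin 2) (Adl K)))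
    exact Continuous.matrix_det Units.continuous_coe_inv

lemma continuous_detNorm501 (hN : AdNormC K) : Continuous (detNorm501 (K := K)) :=
  hN.2.2.2.comp continuous_detU501

lemma detNorm_pos501 (hN : AdNormC K) (g : G K) : 0 < detNorm501 g :=
  adNorm_pos793 hN (Matrix.isUnits_det_units g)

lemma detNorm_mul501 (hN : AdNormC K) (g h : G K) :
    detNorm501 (g * h) = detNorm501 g * detNorm501 h := by
  unfold detNorm501
  rw [Units.val_mul, Matrix.det_mul]
  exact adNorm_mul793 hN (Matrix.isUnits_det_units g) (Matrix.isUnits_det_units h)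

lemma detNorm_ratG501 (hN : AdNormC K) (β : GL (Fin 2) K) : detNorm501 (ratG K β) = 1 := by
  unfold detNorm501
  have h : Matrix.det ((ratG K β : G K) : Matrix (Fin 2) (Fin 2) (Adl K))
      = algebraMap K (Adl K) (Matrix.det (β : Matrix (Fin 2) (Fin 2) K)) := by
    show Matrix.det ((β : Matrix (Fin 2) (Fin 2) K).map (algebraMap K (Adl K))) = _
    rw [← RingHom.mapMatrix_apply, ← RingHom.map_det]
  rw [h]
  exact adNorm_algebraMap793 hN (Matrix.isUnits_det_units β).ne_zero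

lemma detNorm_scalar501 (hN : AdNormC K) (c : (Adl K)ˣ) :
    detNorm501 (scalarG919 c : G K) = adNorm K (c : Adl K) ^ 2 := by
  unfold detNorm501
  rw [scalarG919_val, Matrix.det_diagonal, Fin.prod_univ_two,
    adNorm_mul793 hN c.isUnit c.isUnit, sq]

lemma detNorm_rayG501 (τ : ℝ) :
    detNorm501 (rayG919 K (expU501 τ)) = Real.exp τ ^ Module.finrank ℚ K := by
  unfold detNorm501
  have h : Matrix.det ((rayG919 K (expU501 τ) : G K) : Matrix (Fin 2) (Fin 2) (Adl K))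
      = rayAdl919 K (Real.exp τ) := by
    show Matrix.det (!![((Units.map (rayAdl919 K) (expU501 τ) : (Adl K)ˣ) : Adl K), 0; 0, 1]) = _
    rw [Matrix.det_fin_two_of, mul_one, mul_zero, sub_zero]
    rfl
  rw [h, adNorm_rayAdl919, abs_of_pos (Real.exp_pos τ)]

/-- The module of the determinant is bounded above and below on a compact set. -/
lemma exists_bounds501 (hN : AdNormC K) {Ω : Set (G K)} (hΩ : IsCompact Ω) :
    ∃ B₁ B₂ : ℝ, 0 < B₁ ∧ 0 < B₂ ∧
      ∀ ω ∈ Ω, detNorm501 ω ≤ B₁ ∧ (detNorm501 ω)⁻¹ ≤ B₂ := by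
  have hc : Continuous (detNorm501 (K := K)) := continuous_detNorm501 hN
  have hc' : Continuous (fun g : G K => (detNorm501 g)⁻¹) :=
    hc.inv₀ (fun g => (detNorm_pos501 hN g).ne')
  obtain ⟨B₁, hB₁⟩ := hΩ.bddAbove_image hc.continuousOn
  obtain ⟨B₂, hB₂⟩ := hΩ.bddAbove_image hc'.continuousOn
  refine ⟨max B₁ 1, max B₂ 1, lt_max_of_lt_right one_pos, lt_max_of_lt_right one_pos,
    fun ω hω => ⟨?_, ?_⟩⟩
  · exact le_max_of_le_left (hB₁ (Set.mem_image_of_mem _ hω))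
  · exact le_max_of_le_left (hB₂ (Set.mem_image_of_mem (fun g : G K => (detNorm501 g)⁻¹) hω))

lemma adNorm_inv501 (hN : AdNormC K) (x : (Adl K)ˣ) :
    adNorm K ((x⁻¹ : (Adl K)ˣ) : Adl K) = (adNorm K (x : Adl K))⁻¹ := by
  have h := hN.2.1 x x⁻¹
  have h1 : adNorm K ((1 : (Adl K)ˣ) : Adl K) = 1 := by
    have := hN.2.2.1 1
    rwa [map_one] at this
  rw [mul_inv_cancel, h1] at h
  exact eq_inv_of_mul_eq_one_right h.symm

/-! ## The sub-leaf -/

/-- **Sub-leaf T5.07e `MahlerC`**, verbatim (bytes of `T5/H29/TwSpec.lean`). -/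
theorem mahlerC501 (K : Type) [Field K] [NumberField K] : Fermat.Agent.LT.T5.H29.MahlerC K := by
  intro hT c₀ c₁ hc₀
  have hN : AdNormC K := hT.adNorm
  obtain ⟨Ω₀, m, M, hΩ₀, hm, hmM, hcov⟩ := hT.siegelCompact c₀ hc₀
  obtain ⟨C, hC, hCcov⟩ := hT.fujisaki
  obtain ⟨B₁, B₂, hB₁, hB₂, hB⟩ := exists_bounds501 hN hΩ₀
  obtain ⟨n, hn⟩ : ∃ n : ℕ, n = Module.finrank ℚ K := ⟨_, rfl⟩
  have hn0 : n ≠ 0 := by
    rw [hn]
    exact (Module.finrank_pos (R := ℚ) (M := K)).ne'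
  have hnpos : (0 : ℝ) < (n : ℝ) := Nat.cast_pos.2 (Nat.pos_of_ne_zero hn0)
  have hMpos : 0 < M := lt_of_lt_of_le hm hmM
  obtain ⟨c₁', hc₁'⟩ : ∃ c₁' : ℝ, c₁' = max c₁ c₀ := ⟨_, rfl⟩
  have hc₁'pos : 0 < c₁' := by
    rw [hc₁']
    exact lt_max_of_lt_right hc₀
  have hmc : 0 < m * c₀ := mul_pos hm hc₀
  have hMc : 0 < M * c₁' := mul_pos hMpos hc₁'pos
  have hMcB : 0 < M * c₁' * B₁ := mul_pos hMc hB₁
  -- the parameter intervals
  obtain ⟨σ₁, hσ₁⟩ : ∃ σ₁ : ℝ, σ₁ = Real.log (m * c₀) / n := ⟨_, rfl⟩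
  obtain ⟨σ₂, hσ₂⟩ : ∃ σ₂ : ℝ, σ₂ = Real.log (M * c₁') / n := ⟨_, rfl⟩
  obtain ⟨ζ₁, hζ₁⟩ : ∃ ζ₁ : ℝ, ζ₁ = Real.log (1 / (M * c₁' * B₁)) / 2 / n := ⟨_, rfl⟩
  obtain ⟨ζ₂, hζ₂⟩ : ∃ ζ₂ : ℝ, ζ₂ = Real.log (2 * B₂ / (m * c₀)) / 2 / n := ⟨_, rfl⟩
  -- the compact sets
  have hZ₁c : IsCompact ((fun τ : ℝ => (scalarG919 (rayU501 K τ) : G K)) '' Set.Icc ζ₁ ζ₂) :=
    isCompact_Icc.image (continuous_scalarG501.comp continuous_rayU501)
  have hZ₂c : IsCompact ((fun c : (Adl K)ˣ => (scalarG919 c : G K)) '' C) :=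
    hC.image continuous_scalarG501
  have hAc : IsCompact ((fun τ : ℝ => rayG919 K (expU501 τ)) '' Set.Icc σ₁ σ₂) :=
    isCompact_Icc.image continuous_rayG501
  refine ⟨((fun τ : ℝ => (scalarG919 (rayU501 K τ) : G K)) '' Set.Icc ζ₁ ζ₂)
      * ((fun c : (Adl K)ˣ => (scalarG919 c : G K)) '' C)
      * ((fun τ : ℝ => rayG919 K (expU501 τ)) '' Set.Icc σ₁ σ₂) * Ω₀,
    ((hZ₁c.mul hZ₂c).mul hAc).mul hΩ₀, ?_⟩
  intro y hy t hht hc₀t htc₁
  have hy' : 1 ≤ detNorm501 y ∧ detNorm501 y < 2 := hy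
  obtain ⟨β, z, a, ω, s, hβ, hz, hs, ha, hω, hyeq, hms, hsM⟩ := hcov y t hht hc₀t
  rw [← hn] at hms hsM
  obtain ⟨c, rfl⟩ := central_eq_scalar501 hz
  have ha' : a = rayG919 K (expU501 (Real.log s)) := by
    apply isRay_eq501
    rw [Real.exp_log hs]
    exact ha
  have htc₁' : t ≤ c₁' := by
    rw [hc₁']
    exact le_trans htc₁ (le_max_left _ _)
  -- the range of `s`
  have hsn_pos : 0 < s ^ n := pow_pos hs n
  have hs_lo : m * c₀ ≤ s ^ n := le_trans (mul_le_mul_of_nonneg_left hc₀t hm.le) hms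
  have hs_hi : s ^ n ≤ M * c₁' := le_trans hsM (mul_le_mul_of_nonneg_left htc₁' hMpos.le)
  have hlogs : Real.log (s ^ n) = (n : ℝ) * Real.log s := by
    rw [Real.log_pow]
  have hσ : Real.log s ∈ Set.Icc σ₁ σ₂ := by
    have h1 : Real.log (m * c₀) ≤ (n : ℝ) * Real.log s :=
      hlogs ▸ Real.log_le_log hmc hs_lo
    have h2 : (n : ℝ) * Real.log s ≤ Real.log (M * c₁') :=
      hlogs ▸ Real.log_le_log hsn_pos hs_hi
    constructor
    · rw [hσ₁, div_le_iff₀ hnpos]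
      linarith
    · rw [hσ₂, le_div_iff₀ hnpos]
      linarith
  -- the module of the scalar
  obtain ⟨ν, hν⟩ : ∃ ν : ℝ, ν = adNorm K (c : Adl K) := ⟨_, rfl⟩
  have hνpos : 0 < ν := by
    rw [hν]
    exact hN.1 c
  obtain ⟨δ, hδ⟩ : ∃ δ : ℝ, δ = detNorm501 ω := ⟨_, rfl⟩
  have hδpos : 0 < δ := by
    rw [hδ]
    exact detNorm_pos501 hN ω
  have hdet : detNorm501 y = ν ^ 2 * s ^ n * δ := by
    rw [hyeq, detNorm_mul501 hN, detNorm_mul501 hN, detNorm_mul501 hN, detNorm_ratG501 hN,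
      detNorm_scalar501 hN, ha', detNorm_rayG501, Real.exp_log hs, one_mul, ← hn, ← hν, ← hδ]
  have hδB : δ ≤ B₁ ∧ δ⁻¹ ≤ B₂ := by
    rw [hδ]
    exact hB ω hω
  have hν2 : 0 ≤ ν ^ 2 := sq_nonneg ν
  have hν_lo : 1 / (M * c₁' * B₁) ≤ ν ^ 2 := by
    have h1 : 1 ≤ ν ^ 2 * s ^ n * δ := hdet ▸ hy'.1
    have h2 : ν ^ 2 * s ^ n * δ ≤ ν ^ 2 * (M * c₁') * B₁ :=
      mul_le_mul (mul_le_mul_of_nonneg_left hs_hi hν2) hδB.1 hδpos.le
        (mul_nonneg hν2 hMc.le)
    rw [div_le_iff₀ hMcB]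
    calc (1 : ℝ) ≤ ν ^ 2 * (M * c₁') * B₁ := le_trans h1 h2
      _ = ν ^ 2 * (M * c₁' * B₁) := by ring
  have hν_hi : ν ^ 2 ≤ 2 * B₂ / (m * c₀) := by
    have h1 : ν ^ 2 * s ^ n * δ < 2 := hdet ▸ hy'.2
    rw [le_div_iff₀ hmc]
    have h3 : ν ^ 2 * (m * c₀) ≤ ν ^ 2 * s ^ n := mul_le_mul_of_nonneg_left hs_lo hν2
    have h4 : ν ^ 2 * s ^ n = (ν ^ 2 * s ^ n * δ) * δ⁻¹ := by
      rw [mul_assoc (ν ^ 2 * s ^ n), mul_inv_cancel₀ hδpos.ne', mul_one]
    have h5 : (ν ^ 2 * s ^ n * δ) * δ⁻¹ ≤ 2 * B₂ :=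
      mul_le_mul h1.le hδB.2 (inv_nonneg.2 hδpos.le) (by norm_num)
    rw [← h4] at h5
    exact le_trans h3 h5
  have hlogν : Real.log (ν ^ 2) = 2 * Real.log ν := by
    rw [Real.log_pow]
    norm_num
  have hζ : Real.log ν / n ∈ Set.Icc ζ₁ ζ₂ := by
    have h1 : Real.log (1 / (M * c₁' * B₁)) ≤ 2 * Real.log ν :=
      hlogν ▸ Real.log_le_log (one_div_pos.2 hMcB) hν_lo
    have h2 : 2 * Real.log ν ≤ Real.log (2 * B₂ / (m * c₀)) :=
      hlogν ▸ Real.log_le_log (pow_pos hνpos 2) hν_hi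
    constructor
    · rw [hζ₁]
      apply div_le_div_of_nonneg_right _ hnpos.le
      linarith
    · rw [hζ₂]
      apply div_le_div_of_nonneg_right _ hnpos.le
      linarith
  -- Fujisaki
  obtain ⟨r, hr⟩ : ∃ r : (Adl K)ˣ, r = rayU501 K (Real.log ν / n) := ⟨_, rfl⟩
  have hrn : adNorm K (r : Adl K) = ν := by
    have hmul : (n : ℝ) * (Real.log ν / n) = Real.log ν := by
      field_simp
    rw [hr, adNorm_rayU501, ← hn, ← Real.exp_nat_mul, hmul, Real.exp_log hνpos]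
  have h1 : adNorm K ((c * r⁻¹ : (Adl K)ˣ) : Adl K) = 1 := by
    rw [hN.2.1, adNorm_inv501 hN, hrn, ← hν, mul_inv_cancel₀ hνpos.ne']
  obtain ⟨ξ, hξ⟩ := hCcov (c * r⁻¹) h1
  obtain ⟨c', hc'⟩ : ∃ c' : (Adl K)ˣ, c' = (ratUnit K ξ)⁻¹ * (c * r⁻¹) := ⟨_, rfl⟩
  rw [← hc'] at hξ
  have hc : ratUnit K ξ * r * c' = c := by
    rw [hc', mul_comm (ratUnit K ξ) r, mul_assoc, mul_inv_cancel_left, mul_comm c r⁻¹,
      mul_inv_cancel_left]
  have hsc : (scalarG919 c : G K)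
      = ratG K (scalarG919 ξ) * scalarG919 r * scalarG919 c' := by
    rw [ratG_scalar501, ← scalarG919_mul501, ← scalarG919_mul501, hc]
  have hyeq' : y = ratG K (β * scalarG919 ξ) * (scalarG919 r * scalarG919 c' * a * ω) := by
    rw [hyeq, hsc, map_mul]
    simp only [mul_assoc]
  refine ⟨(β * scalarG919 ξ)⁻¹, ?_⟩
  show ratG K (β * scalarG919 ξ)⁻¹ * y ∈ _
  rw [hyeq', map_inv, inv_mul_cancel_left]
  refine Set.mul_mem_mul (Set.mul_mem_mul (Set.mul_mem_mul ?_ ?_) ?_) hω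
  · exact ⟨Real.log ν / n, hζ, by rw [hr]⟩
  · exact ⟨c', hξ, rfl⟩
  · exact ⟨Real.log s, hσ, ha'.symm⟩

end Fermat.Agent.LT.H501

end
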